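import Fermat.Agent.S13.LocP
import Fermat.Agent.S05.GoodRed
import Fermat.Agent.S05.Slope

/-!
# ML / EFlat / Curve : points away from the kernel of reduction (general valued field)

`A` a valuation ring of `K`, `W` a Weierstrass curve over `K` with integral coefficients and unit
discriminant.  `S13.InE1 A R` is the kernel of reduction (`R = 0` or `x(R) ∉ A`), a subgroup.

* `not_inE1_add` : `q ^ n • P = 0`, `z ≠ 0`, `r • z = 0` (`r ≠ 2, q` prime, `q` the residue characteristic)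
  ⟹ `P + z` is not in the kernel of reduction;
* `val_xc_sub_eq_one` : `R₁, R₂, R₁ + R₂, R₁ - R₂` outside the kernel of reduction ⟹ `x(R₁) - x(R₂)` is a unit;
* `xc_add_of_ne`, `yc_add_of_ne` : the chord formulas.
-/

set_option autoImplicit false

namespace Fermat.Agent.ML.EFlat

open WeierstrassCurve WeierstrassCurve.Affine WeierstrassCurve.Affine.Point
open Fermat.Agent.S05 Fermat.Agent.S13

variable {K : Type*} [Field K] [DecidableEq K] {A : ValuationSubring K}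
  {W : WeierstrassCurve.Affine K}

omit [DecidableEq K] in
lemma ne_zero_of_not_inE1 {R : W.Point} (h : ¬ InE1 A R) : R ≠ 0 := fun h0 => h (Or.inl h0)

omit [DecidableEq K] in
lemma xc_mem_of_not_inE1 {R : W.Point} (h : ¬ InE1 A R) : xc R ∈ A := by
  by_contra hx
  exact h (Or.inr hx)

omit [DecidableEq K] in
lemma yc_mem_of_not_inE1 (I : IntData A W) {R : W.Point} (h : ¬ InE1 A R) : yc R ∈ A :=
  (A.valuation_le_one_iff _).1 (y_integral A I.h₁ I.h₂ I.h₃ I.h₄ I.h₆ (ne_zero_of_not_inE1 h)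
    ((A.valuation_le_one_iff _).2 (xc_mem_of_not_inE1 h)))

theorem not_inE1_of_nsmul (I : IntData A W) {r q : ℕ} (hr : r.Prime) (hr2 : r ≠ 2) (hq : q.Prime)
    (hrq : r ≠ q) (hqA : A.valuation (q : K) < 1) {R : W.Point} (N : ℕ) (h0 : N • R ≠ 0)
    (hr0 : r • (N • R) = 0) : ¬ InE1 A R := by
  intro h
  rcases h.nsmul I.b₂ I.b₄ I.b₆ I.b₈ N with h1 | h1
  · exact h0 h1
  · exact h1 ((A.valuation_le_one_iff _).1
      (torsion_x_integral A r q hr hr2 hq hrq hqA I.b₂ I.b₄ I.b₆ I.b₈ h0 hr0))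

theorem not_inE1_add (I : IntData A W) {r q : ℕ} (hr : r.Prime) (hr2 : r ≠ 2) (hq : q.Prime)
    (hrq : r ≠ q) (hqA : A.valuation (q : K) < 1) {P z : W.Point} {n : ℕ}
    (hP : q ^ n • P = 0) (hz : r • z = 0) (hz0 : z ≠ 0) : ¬ InE1 A (P + z) := by
  have h1 : q ^ n • (P + z) = q ^ n • z := by rw [smul_add, hP, zero_add]
  refine not_inE1_of_nsmul I hr hr2 hq hrq hqA (q ^ n) ?_ ?_
  · rw [h1]
    intro h0
    have : Fact r.Prime := ⟨hr⟩
    have hord : addOrderOf z = r := addOrderOf_eq_prime hz hz0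
    have hd : r ∣ q ^ n := by
      rw [← hord]
      exact addOrderOf_dvd_of_nsmul_eq_zero h0
    exact hrq ((Nat.prime_dvd_prime_iff_eq hr hq).1 (hr.dvd_of_dvd_pow hd))
  · rw [h1, smul_comm, hz, smul_zero]

/-- the difference of the `x`-coordinates is a unit. -/
theorem val_xc_sub_eq_one (I : IntData A W) (hΔ : A.valuation W.Δ = 1) {R₁ R₂ : W.Point}
    (h₁ : ¬ InE1 A R₁) (h₂ : ¬ InE1 A R₂) (hadd : ¬ InE1 A (R₁ + R₂)) (hsub : ¬ InE1 A (R₁ - R₂)) :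
    A.valuation (xc R₁ - xc R₂) = 1 := by
  have le1 : ∀ {z : K}, z ∈ A → A.valuation z ≤ 1 := fun hz => (A.valuation_le_one_iff _).2 hz
  have n1 := ne_zero_of_not_inE1 h₁
  have n2 := ne_zero_of_not_inE1 h₂
  have hx1 := xc_mem_of_not_inE1 h₁
  have hx2 := xc_mem_of_not_inE1 h₂
  have hy1 := yc_mem_of_not_inE1 I h₁
  have hy2 := yc_mem_of_not_inE1 I h₂
  refine le_antisymm (le1 (sub_mem hx1 hx2)) ?_
  by_contra hlt
  rw [not_le] at hlt
  have e1 := (equation_iff _ _).1 (nonsingular_xc_yc n1).1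
  have e2 := (equation_iff _ _).1 (nonsingular_xc_yc n2).1
  have key : (yc R₁ - yc R₂) * (yc R₁ - W.negY (xc R₂) (yc R₂)) =
      (xc R₁ - xc R₂) * (xc R₁ ^ 2 + xc R₁ * xc R₂ + xc R₂ ^ 2 + W.a₂ * (xc R₁ + xc R₂) + W.a₄
        - W.a₁ * yc R₁) := by
    rw [negY]
    linear_combination e1 - e2
  have hmem : xc R₁ ^ 2 + xc R₁ * xc R₂ + xc R₂ ^ 2 + W.a₂ * (xc R₁ + xc R₂) + W.a₄
        - W.a₁ * yc R₁ ∈ A :=
    sub_mem (add_mem (add_mem (add_mem (add_mem (pow_mem hx1 2) (mul_mem hx1 hx2)) (pow_mem hx2 2))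
      (mul_mem I.h₂ (add_mem hx1 hx2))) I.h₄) (mul_mem I.h₁ hy1)
  have hprod : A.valuation ((yc R₁ - yc R₂) * (yc R₁ - W.negY (xc R₂) (yc R₂))) < 1 := by
    rw [key]
    exact val_mul_lt_one_left A.valuation hlt (le1 hmem)
  have hneg : W.negY (xc R₂) (yc R₂) ∈ A := by
    rw [negY]
    exact sub_mem (sub_mem (neg_mem hy2) (mul_mem I.h₁ hx2)) I.h₃
  have hcase : A.valuation (yc R₁ - yc R₂) < 1 ∨
      A.valuation (yc R₁ - W.negY (xc R₂) (yc R₂)) < 1 := by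
    by_contra hcon
    push Not at hcon
    have a1 : A.valuation (yc R₁ - yc R₂) = 1 := le_antisymm (le1 (sub_mem hy1 hy2)) hcon.1
    have a2 : A.valuation (yc R₁ - W.negY (xc R₂) (yc R₂)) = 1 :=
      le_antisymm (le1 (sub_mem hy1 hneg)) hcon.2
    rw [map_mul, a1, a2, one_mul] at hprod
    exact lt_irrefl _ hprod
  rcases hcase with hy | hy
  · have := sub_eq_zero_or_nonintegral A.valuation (le1 I.h₁) (le1 I.h₂) (le1 I.h₃) (le1 I.h₄)
      n1 n2 (le1 hx1) (le1 hy1) (le1 hx2) (le1 hy2) hlt hy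
      (hns_of_unit_disc A I.h₁ I.h₂ I.h₃ I.h₄ hΔ n2 (le1 hx2) (le1 hy2))
    rcases this with h | h
    · exact hsub (Or.inl h)
    · exact hsub (Or.inr fun hm => absurd (le1 hm) (not_le.2 h))
  · have n2' : -R₂ ≠ 0 := neg_ne_zero.2 n2
    have hxn : xc (-R₂) = xc R₂ := xc_neg R₂
    have hyn : yc (-R₂) = W.negY (xc R₂) (yc R₂) := yc_neg n2
    have := sub_eq_zero_or_nonintegral A.valuation (le1 I.h₁) (le1 I.h₂) (le1 I.h₃) (le1 I.h₄)
      n1 n2' (le1 hx1) (le1 hy1) (by rw [hxn]; exact le1 hx2) (by rw [hyn]; exact le1 hneg)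
      (by rw [hxn]; exact hlt) (by rw [hyn]; exact hy)
      (hns_of_unit_disc A I.h₁ I.h₂ I.h₃ I.h₄ hΔ n2' (by rw [hxn]; exact le1 hx2)
        (by rw [hyn]; exact le1 hneg))
    rw [sub_neg_eq_add] at this
    rcases this with h | h
    · exact hadd (Or.inl h)
    · exact hadd (Or.inr fun hm => absurd (le1 hm) (not_le.2 h))

/-- two translates of `q`-power torsion points by prime-to-`q` torsion points `z₁, z₂` with
`z₁ ± z₂ ≠ 0` have `x`-coordinates which differ by a unit. -/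
theorem val_xc_add_sub_eq_one (I : IntData A W) (hΔ : A.valuation W.Δ = 1) {r q : ℕ} (hr : r.Prime)
    (hr2 : r ≠ 2) (hq : q.Prime) (hrq : r ≠ q) (hqA : A.valuation (q : K) < 1) {P Q z₁ z₂ : W.Point}
    {n : ℕ} (hP : q ^ n • P = 0) (hQ : q ^ n • Q = 0) (hz₁ : r • z₁ = 0) (hz₂ : r • z₂ = 0)
    (h1 : z₁ ≠ 0) (h2 : z₂ ≠ 0) (h3 : z₁ + z₂ ≠ 0) (h4 : z₁ - z₂ ≠ 0) :
    A.valuation (xc (P + z₁) - xc (Q + z₂)) = 1 := by
  refine val_xc_sub_eq_one I hΔ (not_inE1_add I hr hr2 hq hrq hqA hP hz₁ h1)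
    (not_inE1_add I hr hr2 hq hrq hqA hQ hz₂ h2) ?_ ?_
  · rw [show P + z₁ + (Q + z₂) = (P + Q) + (z₁ + z₂) by abel]
    exact not_inE1_add I hr hr2 hq hrq hqA (by rw [smul_add, hP, hQ, add_zero])
      (by rw [smul_add, hz₁, hz₂, add_zero]) h3
  · rw [show P + z₁ - (Q + z₂) = (P - Q) + (z₁ - z₂) by abel]
    exact not_inE1_add I hr hr2 hq hrq hqA (by rw [smul_sub, hP, hQ, sub_zero])
      (by rw [smul_sub, hz₁, hz₂, sub_zero]) h4

/-- the chord formula for `x`. -/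
theorem xc_add_of_ne {R₁ R₂ : W.Point} (n1 : R₁ ≠ 0) (n2 : R₂ ≠ 0) (hx : xc R₁ ≠ xc R₂) :
    xc (R₁ + R₂) = ((yc R₁ - yc R₂) * (xc R₁ - xc R₂)⁻¹) ^ 2
      + W.a₁ * ((yc R₁ - yc R₂) * (xc R₁ - xc R₂)⁻¹) - W.a₂ - xc R₁ - xc R₂ := by
  cases R₁ with
  | zero => exact absurd rfl n1
  | some x1 y1 m1 =>
  cases R₂ with
  | zero => exact absurd rfl n2
  | some x2 y2 m2 =>
  simp only [xc_some, yc_some] at hx ⊢
  rw [add_of_X_ne hx, xc_some, addX, slope_of_X_ne hx, div_eq_mul_inv]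

/-- the chord formula for `y`. -/
theorem yc_add_of_ne {R₁ R₂ : W.Point} (n1 : R₁ ≠ 0) (n2 : R₂ ≠ 0) (hx : xc R₁ ≠ xc R₂) :
    yc (R₁ + R₂) = -(((yc R₁ - yc R₂) * (xc R₁ - xc R₂)⁻¹) * (xc (R₁ + R₂) - xc R₁) + yc R₁)
      - W.a₁ * xc (R₁ + R₂) - W.a₃ := by
  cases R₁ with
  | zero => exact absurd rfl n1
  | some x1 y1 m1 =>
  cases R₂ with
  | zero => exact absurd rfl n2
  | some x2 y2 m2 =>
  simp only [xc_some, yc_some] at hx ⊢
  rw [add_of_X_ne hx, xc_some, yc_some, addY, negAddY, negY, slope_of_X_ne hx, div_eq_mul_inv]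

end Fermat.Agent.ML.EFlat
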