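import Fermat.Agent.RED.DRH.Param
import Fermat.Agent.RED.FF.DeuringBridge

/-!
# ML / EFlat : the genus of a Weierstrass function field (abstract form)

`K` algebraically closed, `F / K` a field, `x y : F` with `F = K(x) + K(x) y` of degree `2` over
`K(x)`, `x` a separating parameter, and a Weierstrass equation between `x` and `y`.

* `IsWGen.gR_le_one` : `gR K F ≤ 1` (the monomials `x^i`, `x^i y`);
* `IsWGen.exists_poly` : if `Δ ≠ 0` and `2 ≠ 0`, every function without poles outside the poles
  of `x` is `A(x) + B(x) y`;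
* `IsWGen.one_le_gR` : `1 ≤ gR K F`.
-/

set_option autoImplicit false

open AlgebraicCurve IntermediateField Polynomial
open scoped IntermediateField.algebraAdjoinAdjoin
open Fermat.Agent.S24 Fermat.Agent.RED

namespace Fermat.Agent.ML.EFlat

variable {K F : Type*} [Field K] [Field F] [Algebra K F]

/-- `x, y` are Weierstrass generators of the function field `F / K`. -/
structure IsWGen (W : WeierstrassCurve K) (x y : F) : Prop where
  sep : IsSepParam K x
  finrank : Module.finrank K⟮x⟯ F = 2
  not_mem : y ∉ K⟮x⟯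
  eqn : y ^ 2 + algebraMap K F W.a₁ * x * y + algebraMap K F W.a₃ * y =
    x ^ 3 + algebraMap K F W.a₂ * x ^ 2 + algebraMap K F W.a₄ * x + algebraMap K F W.a₆

/-- a root of a monic quadratic polynomial over a valuation ring lies in it -/
theorem mem_of_quadratic (O : ValuationSubring F) {z b c : F} (hb : b ∈ O) (hc : c ∈ O)
    (h : z ^ 2 + b * z + c = 0) : z ∈ O := by
  rcases O.mem_or_inv_mem z with hz | hz
  · exact hz
  · rcases eq_or_ne z 0 with rfl | hz0
    · exact O.zero_mem
    have : z = -b - c * z⁻¹ := by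
      field_simp
      linear_combination h
    rw [this]
    exact O.sub_mem (O.neg_mem _ hb) (O.mul_mem _ _ hc hz)

/-- `b² D ∈ R`, `D` squarefree `⟹ b ∈ R` -/
theorem exists_of_sq_mul_squarefree {R Q : Type*} [CommRing R] [IsDomain R]
    [UniqueFactorizationMonoid R] [Field Q] [Algebra R Q] [IsFractionRing R Q] {D : R}
    (hD : Squarefree D) {b : Q} {s : R} (h : b ^ 2 * algebraMap R Q D = algebraMap R Q s) :
    ∃ b₀ : R, algebraMap R Q b₀ = b := by
  obtain ⟨u, w, hrel, hb⟩ := IsFractionRing.exists_reduced_fraction (A := R) b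
  have hw0 : algebraMap R Q (w : R) ≠ 0 :=
    IsFractionRing.to_map_ne_zero_of_mem_nonZeroDivisors w.2
  have hb' : b * algebraMap R Q (w : R) = algebraMap R Q u := by
    rw [← hb, IsLocalization.mk'_spec]
  have h1 : u ^ 2 * D = s * (w : R) ^ 2 := by
    apply IsFractionRing.injective R Q
    rw [map_mul, map_mul, map_pow, map_pow, ← hb', ← h]
    ring
  have h2 : (w : R) ^ 2 ∣ D * u ^ 2 := ⟨s, by rw [mul_comm D, h1]; ring⟩
  have h3 : (w : R) ^ 2 ∣ D := (hrel.symm.pow (m := 2) (n := 2)).dvd_of_dvd_mul_right h2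
  have h4 : IsUnit (w : R) := hD _ (by rwa [← sq])
  obtain ⟨w', hw'⟩ := h4
  refine ⟨u * ((w'⁻¹ : Rˣ) : R), ?_⟩
  have h5 : (w : R) * ((w'⁻¹ : Rˣ) : R) = 1 := by rw [← hw']; exact w'.mul_inv
  have h6 : algebraMap R Q (w : R) * algebraMap R Q ((w'⁻¹ : Rˣ) : R) = 1 := by
    rw [← map_mul, h5, map_one]
  rw [map_mul, ← hb', mul_assoc, h6, mul_one]

/-- the two-torsion polynomial is squarefree -/
theorem squarefree_twoTorsion [IsAlgClosed K] (W : WeierstrassCurve K) (h2 : (2 : K) ≠ 0)
    (hΔ : W.Δ ≠ 0) : Squarefree W.twoTorsionPolynomial.toPoly := by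
  have ha : W.twoTorsionPolynomial.a ≠ 0 := by
    show (4 : K) ≠ 0
    have : (4 : K) = 2 * 2 := by norm_num
    rw [this]
    exact mul_ne_zero h2 h2
  have hsp : (W.twoTorsionPolynomial.toPoly.map (RingHom.id K)).Splits :=
    IsAlgClosed.splits _
  have hd : W.twoTorsionPolynomial.discr ≠ 0 := by
    rw [W.twoTorsionPolynomial_discr]
    have : (16 : K) = 2 * 2 * 2 * 2 := by norm_num
    rw [this]
    exact mul_ne_zero (mul_ne_zero (mul_ne_zero (mul_ne_zero h2 h2) h2) h2) hΔ
  have h1 := (Cubic.discr_ne_zero_iff_roots_nodup ha hsp).1 hd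
  rw [Cubic.map_roots, Polynomial.map_id] at h1
  have h0 : W.twoTorsionPolynomial.toPoly ≠ 0 := Cubic.ne_zero_of_a_ne_zero ha
  exact ((nodup_roots_iff_of_splits h0 (IsAlgClosed.splits _)).1 h1).squarefree

namespace IsWGen

variable {W : WeierstrassCurve K} {x y : F}

theorem y_ne_zero (H : IsWGen W x y) : y ≠ 0 := by
  rintro rfl
  exact H.not_mem (zero_mem _)

theorem aeval_mem (p : K[X]) : aeval x p ∈ K⟮x⟯ := by
  have h : (Algebra.adjoin K {x} : Subalgebra K F) ≤ K⟮x⟯.toSubalgebra :=
    IntermediateField.algebra_adjoin_le_adjoin K {x}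
  apply h
  rw [Algebra.adjoin_singleton_eq_range_aeval]
  exact ⟨p, rfl⟩

/-- independence of `1, y` over `K[x]` -/
theorem indep (H : IsWGen W x y) {p q : K[X]} (h : aeval x p + aeval x q * y = 0) :
    p = 0 ∧ q = 0 := by
  have hinj := (transcendental_iff_injective.1 H.sep.transcendental)
  have hq : q = 0 := by
    by_contra hq
    have hq' : aeval x q ≠ 0 := fun h0 => hq (hinj (by rw [h0, map_zero]))
    apply H.not_mem
    have : y = -(aeval x p) / aeval x q := by
      field_simp
      linear_combination h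
    rw [this]
    exact div_mem (neg_mem (aeval_mem p)) (aeval_mem q)
  refine ⟨?_, hq⟩
  rw [hq, map_zero, zero_mul, add_zero] at h
  exact hinj (by rw [h, map_zero])

/-- `y` has at most a double pole relative to `x` -/
theorem y_mem_L (H : IsWGen W x y) : y ∈ riemannRochSpace (2 • polarDiv K x) := by
  rw [mem_L_iff_of_ne_zero H.y_ne_zero]
  intro v
  have hx0 := H.sep.ne_zero
  rw [Finsupp.smul_apply, H.sep.polarDiv_apply]
  rcases v.toValuationSubring.mem_or_inv_mem x with hx | hx
  · have hy : y ∈ v.toValuationSubring := by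
      refine mem_of_quadratic v.toValuationSubring
        (b := algebraMap K F W.a₁ * x + algebraMap K F W.a₃)
        (c := -(x ^ 3 + algebraMap K F W.a₂ * x ^ 2 + algebraMap K F W.a₄ * x +
          algebraMap K F W.a₆)) ?_ ?_ (by linear_combination H.eqn)
      · exact add_mem (mul_mem (v.algebraMap_mem' _) hx) (v.algebraMap_mem' _)
      · exact neg_mem (add_mem (add_mem (add_mem (pow_mem hx 3)
          (mul_mem (v.algebraMap_mem' _) (pow_mem hx 2))) (mul_mem (v.algebraMap_mem' _) hx))
          (v.algebraMap_mem' _))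
    have h1 := Place.ord_nonneg_of_mem v hy
    have h2 := le_max_right (-v.ord x) 0
    simp only [nsmul_eq_mul, Nat.cast_ofNat]
    linarith
  · have hz : y * x⁻¹ ^ 2 ∈ v.toValuationSubring := by
      refine mem_of_quadratic v.toValuationSubring
        (b := algebraMap K F W.a₁ * x⁻¹ + algebraMap K F W.a₃ * x⁻¹ ^ 2)
        (c := -(x⁻¹ + algebraMap K F W.a₂ * x⁻¹ ^ 2 + algebraMap K F W.a₄ * x⁻¹ ^ 3 +
          algebraMap K F W.a₆ * x⁻¹ ^ 4)) ?_ ?_ ?_
      · exact add_mem (mul_mem (v.algebraMap_mem' _) hx)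
          (mul_mem (v.algebraMap_mem' _) (pow_mem hx 2))
      · exact neg_mem (add_mem (add_mem (add_mem hx
          (mul_mem (v.algebraMap_mem' _) (pow_mem hx 2)))
          (mul_mem (v.algebraMap_mem' _) (pow_mem hx 3)))
          (mul_mem (v.algebraMap_mem' _) (pow_mem hx 4)))
      · have := H.eqn
        field_simp
        linear_combination this
    have h1 := Place.ord_nonneg_of_mem v hz
    rw [v.ord_mul H.y_ne_zero (pow_ne_zero _ (inv_ne_zero hx0)), Place.ord_pow, v.ord_inv] at h1
    have h2 := le_max_left (-v.ord x) 0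
    simp only [nsmul_eq_mul, Nat.cast_ofNat]
    push_cast at h1
    linarith

theorem aeval_mem_L (H : IsWGen W x y) {p : K[X]} {m : ℕ} (hp : p.natDegree ≤ m) :
    aeval x p ∈ riemannRochSpace (m • polarDiv K x) := by
  rw [aeval_eq_sum_range]
  have := H.sep.sum_range_mem_L x (p.natDegree + 1) (fun i => p.coeff i)
  exact L_mono (nsmul_le_nsmul_left (polarDiv_nonneg x) (by omega)) this

/-- the map `(p, q) ↦ p(x) + q(x) y` -/
noncomputable def pq (x y : F) : K[X] × K[X] →ₗ[K] F :=
  (aeval x : K[X] →ₐ[K] F).toLinearMap.coprod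
    ((LinearMap.mulRight K y).comp (aeval x : K[X] →ₐ[K] F).toLinearMap)

@[simp] theorem pq_apply (p q : K[X]) : pq x y (p, q) = aeval x p + aeval x q * y := rfl

theorem pq_injective (H : IsWGen W x y) : Function.Injective (pq (K := K) x y) := by
  rw [← LinearMap.ker_eq_bot, LinearMap.ker_eq_bot']
  rintro ⟨p, q⟩ h
  obtain ⟨h1, h2⟩ := H.indep (p := p) (q := q) h
  rw [h1, h2]
  rfl

theorem pq_mem_L (H : IsWGen W x y) {p q : K[X]} {m : ℕ} (hp : p.natDegree ≤ m + 2)
    (hq : q.natDegree ≤ m) : pq x y (p, q) ∈ riemannRochSpace ((m + 2) • polarDiv K x) := by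
  rw [pq_apply]
  refine add_mem (H.aeval_mem_L hp) ?_
  have := mul_mem_L (H.aeval_mem_L hq) H.y_mem_L
  rwa [← add_nsmul] at this

/-- `ℓ((m+2) (x)_∞) ≥ 2 m + 4` -/
theorem le_ell [IsAlgClosed K] (H : IsWGen W x y) (m : ℕ) :
    2 * m + 4 ≤ ell ((m + 2) • polarDiv K x) := by
  have hfin : Module.Finite K (riemannRochSpace ((m + 2) • polarDiv K x)) := H.sep.finite_L _
  let Φ : (degreeLT K (m + 3)) × (degreeLT K (m + 1)) →ₗ[K]
      riemannRochSpace ((m + 2) • polarDiv K x) :=
    LinearMap.codRestrict _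
      ((pq x y).comp (LinearMap.prodMap (degreeLT K (m + 3)).subtype (degreeLT K (m + 1)).subtype))
      (by
        rintro ⟨⟨p, hp⟩, ⟨q, hq⟩⟩
        refine H.pq_mem_L (p := p) (q := q) ?_ ?_
        · rw [mem_degreeLT] at hp
          by_cases h0 : p = 0
          · simp [h0]
          · have := (natDegree_lt_iff_degree_lt h0).2 hp
            omega
        · rw [mem_degreeLT] at hq
          by_cases h0 : q = 0
          · simp [h0]
          · have := (natDegree_lt_iff_degree_lt h0).2 hq
            omega)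
  have hΦ : Function.Injective Φ := by
    intro a b hab
    have h1 : pq x y ((a.1 : K[X]), (a.2 : K[X])) = pq x y ((b.1 : K[X]), (b.2 : K[X])) :=
      congrArg Subtype.val hab
    have h2 := H.pq_injective h1
    rw [Prod.mk.injEq] at h2
    exact Prod.ext (Subtype.ext h2.1) (Subtype.ext h2.2)
  have h := LinearMap.finrank_le_finrank_of_injective hΦ
  rw [Module.finrank_prod, (degreeLTEquiv K (m + 3)).finrank_eq,
    (degreeLTEquiv K (m + 1)).finrank_eq, Module.finrank_fin_fun, Module.finrank_fin_fun] at h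
  show 2 * m + 4 ≤ Module.finrank K _
  omega

/-- **the genus is at most one** -/
theorem gR_le_one [IsAlgClosed K] (H : IsWGen W x y) : gR K F ≤ 1 := by
  obtain ⟨c, hc⟩ := H.sep.exists_riemann
  have hdeg : Divisor.degree ((c.toNat + 2) • polarDiv K x) = 2 * (c.toNat : ℤ) + 4 := by
    rw [map_nsmul, H.sep.degree_polarDiv, H.finrank]
    simp only [nsmul_eq_mul]
    push_cast
    ring
  have h1 := hc ((c.toNat + 2) • polarDiv K x) (by rw [hdeg]; omega)
  have h2 := H.le_ell c.toNat
  rw [hdeg] at h1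
  have h3 : (2 * (c.toNat : ℤ) + 4) ≤ ell ((c.toNat + 2) • polarDiv K x) := by exact_mod_cast h2
  linarith

/-- `F = K(x) + K(x) y` -/
theorem exists_repr (H : IsWGen W x y) (f : F) : ∃ a b : K⟮x⟯, f = (a : F) + (b : F) * y := by
  have hli : LinearIndependent K⟮x⟯ ![(1 : F), y] := by
    rw [LinearIndependent.pair_iff]
    intro s t hst
    rw [Algebra.smul_def, Algebra.smul_def, mul_one] at hst
    have hst' : (s : F) + (t : F) * y = 0 := hst
    have ht : t = 0 := by
      by_contra ht
      apply H.not_mem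
      have ht' : (t : F) ≠ 0 := fun h => ht (Subtype.ext h)
      have : y = ((-s / t : K⟮x⟯) : F) := by
        push_cast
        field_simp
        linear_combination hst'
      rw [this]
      exact (-s / t).2
    refine ⟨?_, ht⟩
    rw [ht] at hst'
    apply Subtype.ext
    simpa using hst'
  have hspan := hli.span_eq_top_of_card_eq_finrank (by simp [H.finrank])
  have hf : f ∈ Submodule.span K⟮x⟯ (Set.range ![(1 : F), y]) := by rw [hspan]; trivial
  obtain ⟨c, hc⟩ := (Submodule.mem_span_range_iff_exists_fun _).1 hf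
  refine ⟨c 0, c 1, ?_⟩
  rw [← hc, Fin.sum_univ_two]
  simp [Algebra.smul_def]

/-- the conjugation `y ↦ -y - a₁ x - a₃` -/
theorem exists_conj (H : IsWGen W x y) : ∃ σ : F ≃ₐ[K⟮x⟯] F,
    σ y = -y - (algebraMap K F W.a₁ * x + algebraMap K F W.a₃) := by
  have : Algebra.IsQuadraticExtension K⟮x⟯ F := ⟨H.finrank⟩
  have := H.sep.separable
  have hcard : Nat.card (F ≃ₐ[K⟮x⟯] F) = 2 := by rw [IsGalois.card_aut_eq_finrank, H.finrank]
  have : Finite (F ≃ₐ[K⟮x⟯] F) := Nat.finite_of_card_ne_zero (by rw [hcard]; norm_num)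
  have : Nontrivial (F ≃ₐ[K⟮x⟯] F) :=
    Finite.one_lt_card_iff_nontrivial.1 (by rw [hcard]; norm_num)
  obtain ⟨σ, hσ⟩ := exists_ne (1 : F ≃ₐ[K⟮x⟯] F)
  have hfix : ∀ a : K⟮x⟯, σ (a : F) = a := fun a => σ.commutes a
  have hy : σ y ≠ y := by
    intro h
    apply hσ
    ext f
    obtain ⟨a, b, rfl⟩ := H.exists_repr f
    rw [map_add, map_mul, hfix, hfix, h]
    rfl
  have hx : σ x = x := hfix ⟨x, mem_adjoin_simple_self K x⟩
  have hK : ∀ c : K, σ (algebraMap K F c) = algebraMap K F c := fun c =>
    hfix (algebraMap K K⟮x⟯ c)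
  have h1 := congrArg σ H.eqn
  simp only [map_add, map_mul, map_pow, hx, hK] at h1
  have h2 : (σ y - y) * (σ y + y + (algebraMap K F W.a₁ * x + algebraMap K F W.a₃)) = 0 := by
    linear_combination h1 - H.eqn
  rcases mul_eq_zero.1 h2 with h | h
  · exact absurd (sub_eq_zero.1 h) hy
  · exact ⟨σ, by linear_combination h⟩

theorem exists_aeval_eq (r : polyRing K x) : ∃ p : K[X], aeval x p = (r : F) := by
  have h : (r : F) ∈ (aeval x : K[X] →ₐ[K] F).range := by
    rw [← Algebra.adjoin_singleton_eq_range_aeval]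
    exact r.2
  exact h

theorem coe_algEquiv (h : Transcendental K x) (p : K[X]) :
    ((Polynomial.algEquivOfTranscendental K x h p : polyRing K x) : F) = aeval x p := by
  rw [Polynomial.algEquivOfTranscendental_apply, aeval_subalgebra_coe]

/-- **the affine coordinate ring is integrally closed**: a function without poles outside the
poles of `x` is `p(x) + q(x) y`. -/
theorem exists_poly [IsAlgClosed K] (H : IsWGen W x y) (h2 : (2 : K) ≠ 0) (hΔ : W.Δ ≠ 0) {f : F}
    (hf : ∀ v : Place K F, x ∈ v.toValuationSubring → f ∈ v.toValuationSubring) :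
    ∃ p q : K[X], f = aeval x p + aeval x q * y := by
  have hPID := H.sep.toIsFiniteParam.isPrincipalIdealRing
  have hint : IsIntegral (polyRing K x) f :=
    (DRH.isIntegral_iff_forall_place H.sep (polyRing K x) f).2
      (fun v hv => hf v (hv ⟨x, Algebra.self_mem_adjoin_singleton K x⟩))
  obtain ⟨σ, hσ⟩ := H.exists_conj
  obtain ⟨a, b, hab⟩ := H.exists_repr f
  have hfix : ∀ a : K⟮x⟯, σ (a : F) = a := fun a => σ.commutes a
  have hσint : IsIntegral (polyRing K x) (σ f) :=
    hint.map (σ.toAlgHom.restrictScalars (polyRing K x))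
  have hσf : σ f = (a : F) + (b : F) * (-y - (algebraMap K F W.a₁ * x + algebraMap K F W.a₃)) := by
    rw [hab, map_add, map_mul, hfix, hfix, hσ]
  -- the elements `e`, `D` of `K[x]`
  let eP : K[X] := C W.a₁ * X + C W.a₃
  let e : polyRing K x := Polynomial.algEquivOfTranscendental K x H.sep.transcendental eP
  let D : polyRing K x :=
    Polynomial.algEquivOfTranscendental K x H.sep.transcendental W.twoTorsionPolynomial.toPoly
  have he : (e : F) = algebraMap K F W.a₁ * x + algebraMap K F W.a₃ := by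
    show ((Polynomial.algEquivOfTranscendental K x H.sep.transcendental eP : polyRing K x) : F) = _
    rw [coe_algEquiv]
    simp [eP]
  have hDv : (D : F) = (2 * y + (algebraMap K F W.a₁ * x + algebraMap K F W.a₃)) ^ 2 := by
    show ((Polynomial.algEquivOfTranscendental K x H.sep.transcendental
      W.twoTorsionPolynomial.toPoly : polyRing K x) : F) = _
    rw [coe_algEquiv]
    simp only [WeierstrassCurve.twoTorsionPolynomial, Cubic.toPoly, map_add, map_mul, map_pow,
      aeval_C, aeval_X, WeierstrassCurve.b₂, WeierstrassCurve.b₄, WeierstrassCurve.b₆]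
    simp only [map_ofNat]
    linear_combination (-4 : F) * H.eqn
  have hDsq : Squarefree D := by
    intro w hw
    have h1 := map_dvd (Polynomial.algEquivOfTranscendental K x H.sep.transcendental).symm hw
    rw [map_mul, AlgEquiv.symm_apply_apply] at h1
    have h3 := (squarefree_twoTorsion W h2 hΔ _ h1).map
      (Polynomial.algEquivOfTranscendental K x H.sep.transcendental)
    rwa [AlgEquiv.apply_symm_apply] at h3
  -- the trace
  have ht : IsIntegral (polyRing K x) (2 * a - b * algebraMap (polyRing K x) K⟮x⟯ e) := by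
    rw [← isIntegral_algebraMap_iff (algebraMap K⟮x⟯ F).injective]
    have h1 : algebraMap K⟮x⟯ F (2 * a - b * algebraMap (polyRing K x) K⟮x⟯ e) = f + σ f := by
      rw [hσf, hab]
      show ((2 * a - b * algebraMap (polyRing K x) K⟮x⟯ e : K⟮x⟯) : F) = _
      have hcoe : ((2 * a - b * algebraMap (polyRing K x) K⟮x⟯ e : K⟮x⟯) : F) =
          2 * (a : F) - (b : F) * (e : F) := rfl
      rw [hcoe, he]
      ring
    rw [h1]
    exact hint.add hσint
  obtain ⟨t₀, ht₀⟩ := IsIntegrallyClosed.isIntegral_iff.1 ht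
  -- the square of the difference
  have hd : IsIntegral (polyRing K x) (b ^ 2 * algebraMap (polyRing K x) K⟮x⟯ D) := by
    rw [← isIntegral_algebraMap_iff (algebraMap K⟮x⟯ F).injective]
    have h1 : algebraMap K⟮x⟯ F (b ^ 2 * algebraMap (polyRing K x) K⟮x⟯ D) = (f - σ f) ^ 2 := by
      rw [hσf, hab]
      show ((b ^ 2 * algebraMap (polyRing K x) K⟮x⟯ D : K⟮x⟯) : F) = _
      push_cast
      rw [IntermediateField.algebraAdjoinAdjoin.coe_algebraMap, hDv]
      ring
    rw [h1]
    exact (hint.sub hσint).pow 2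
  obtain ⟨s₀, hs₀⟩ := IsIntegrallyClosed.isIntegral_iff.1 hd
  obtain ⟨b₀, hb₀⟩ := exists_of_sq_mul_squarefree hDsq hs₀.symm
  obtain ⟨pt, hpt⟩ := exists_aeval_eq t₀
  obtain ⟨pb, hpb⟩ := exists_aeval_eq b₀
  have hbF : (b : F) = aeval x pb := by
    rw [hpb, ← hb₀, IntermediateField.algebraAdjoinAdjoin.coe_algebraMap]
  have htF : 2 * (a : F) - (b : F) * (algebraMap K F W.a₁ * x + algebraMap K F W.a₃) =
      aeval x pt := by
    rw [hpt, ← he]
    have := congrArg (fun z : K⟮x⟯ => (z : F)) ht₀
    have hcoe : ((2 * a - b * algebraMap (polyRing K x) K⟮x⟯ e : K⟮x⟯) : F) =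
        2 * (a : F) - (b : F) * (e : F) := rfl
    simp only [IntermediateField.algebraAdjoinAdjoin.coe_algebraMap] at this
    rw [this, hcoe]
  have h2F : (2 : F) ≠ 0 := by
    have := (map_ne_zero (algebraMap K F)).2 h2
    rwa [map_ofNat] at this
  refine ⟨C (2⁻¹ : K) * (pt + pb * eP), pb, ?_⟩
  rw [hab, hbF]
  have hE : aeval x eP = algebraMap K F W.a₁ * x + algebraMap K F W.a₃ := by simp [eP]
  rw [map_mul, aeval_C, map_add, map_mul, hE, ← htF, hbF, map_inv₀, map_ofNat]
  field_simp
  ring

/-- at a pole of `x`: `2 ord y = 3 ord x` -/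
theorem two_ord_y (H : IsWGen W x y) (v : Place K F) (hv : v.ord x < 0) :
    2 * v.ord y = 3 * v.ord x := by
  set cP : K[X] := X ^ 3 + C W.a₂ * X ^ 2 + C W.a₄ * X + C W.a₆ with hcP
  set eP : K[X] := C W.a₁ * X + C W.a₃ with heP
  have hcdeg : cP.natDegree = 3 := by
    rw [hcP]
    compute_degree!
  have hc0 : cP ≠ 0 := by
    intro h
    rw [h] at hcdeg
    simp at hcdeg
  have hedeg : eP.natDegree ≤ 1 := by
    rw [heP]
    compute_degree
  have hc := DRH.ord_aeval_of_pole v hv hc0
  rw [hcdeg] at hc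
  have hy0 := H.y_ne_zero
  have heq : y * (y + aeval x eP) = aeval x cP := by
    simp only [hcP, heP, map_add, map_mul, map_pow, aeval_C, aeval_X]
    linear_combination H.eqn
  have hcx0 : aeval x cP ≠ 0 := fun h =>
    hc0 (transcendental_iff_injective.1 H.sep.transcendental (by rw [h, map_zero]))
  have hye0 : y + aeval x eP ≠ 0 := by
    intro h
    rw [h, mul_zero] at heq
    exact hcx0 heq.symm
  have hsum : v.ord y + v.ord (y + aeval x eP) = 3 * v.ord x := by
    rw [← v.ord_mul hy0 hye0, heq, hc]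
    norm_num
  by_cases he0 : eP = 0
  · rw [he0, map_zero, add_zero] at hsum
    linarith
  have hex0 : aeval x eP ≠ 0 := fun h =>
    he0 (transcendental_iff_injective.1 H.sep.transcendental (by rw [h, map_zero]))
  have he := DRH.ord_aeval_of_pole v hv he0
  have he' : v.ord x ≤ v.ord (aeval x eP) := by
    rw [he]
    have : (eP.natDegree : ℤ) ≤ 1 := by exact_mod_cast hedeg
    nlinarith
  have hlt : v.ord y < v.ord x := by
    by_contra hcon
    push Not at hcon
    have := Place.ord_add_ge v hy0 hex0 hye0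
    have h2 : v.ord x ≤ min (v.ord y) (v.ord (aeval x eP)) := le_min hcon he'
    linarith
  rw [Place.ord_add_eq_of_lt v hy0 hex0 (lt_of_lt_of_le hlt he')] at hsum
  linarith

/-- pole orders of `p(x) + q(x) y` at a pole of `x` -/
theorem degree_bound (H : IsWGen W x y) (v : Place K F) (hv : v.ord x < 0) {p q : K[X]} {m : ℤ}
    (hf : m * v.ord x ≤ 2 * v.ord (aeval x p + aeval x q * y)) :
    (p ≠ 0 → 2 * (p.natDegree : ℤ) ≤ m) ∧ (q ≠ 0 → 2 * (q.natDegree : ℤ) + 3 ≤ m) := by
  have hinj := transcendental_iff_injective.1 H.sep.transcendental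
  have hy := H.two_ord_y v hv
  have hy0 := H.y_ne_zero
  by_cases hp : p = 0
  · by_cases hq : q = 0
    · exact ⟨fun h => absurd hp h, fun h => absurd hq h⟩
    · have hq' : aeval x q ≠ 0 := fun h => hq (hinj (by rw [h, map_zero]))
      rw [hp, map_zero, zero_add, v.ord_mul hq' hy0, DRH.ord_aeval_of_pole v hv hq] at hf
      refine ⟨fun h => absurd hp h, fun _ => ?_⟩
      nlinarith
  · have hp' : aeval x p ≠ 0 := fun h => hp (hinj (by rw [h, map_zero]))
    have hop := DRH.ord_aeval_of_pole v hv hp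
    by_cases hq : q = 0
    · rw [hq, map_zero, zero_mul, add_zero, hop] at hf
      refine ⟨fun _ => ?_, fun h => absurd hq h⟩
      nlinarith
    · have hq' : aeval x q ≠ 0 := fun h => hq (hinj (by rw [h, map_zero]))
      have hqy : aeval x q * y ≠ 0 := mul_ne_zero hq' hy0
      have hoq : v.ord (aeval x q * y) = q.natDegree * v.ord x + v.ord y := by
        rw [v.ord_mul hq' hy0, DRH.ord_aeval_of_pole v hv hq]
      rcases lt_trichotomy (v.ord (aeval x p)) (v.ord (aeval x q * y)) with h | h | h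
      · rw [Place.ord_add_eq_of_lt v hp' hqy h, hop] at hf
        rw [hop, hoq] at h
        constructor
        · intro _; nlinarith
        · intro _; nlinarith
      · exfalso
        rw [hop, hoq] at h
        have h1 : (2 * (p.natDegree : ℤ) - 2 * q.natDegree - 3) * v.ord x = 0 := by
          linear_combination 2 * h + hy
        rcases mul_eq_zero.1 h1 with h2 | h2
        · omega
        · omega
      · rw [add_comm, Place.ord_add_eq_of_lt v hqy hp' h, hoq] at hf
        rw [hop, hoq] at h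
        constructor
        · intro _; nlinarith
        · intro _; nlinarith

theorem exists_pole [IsAlgClosed K] (H : IsWGen W x y) : ∃ v : Place K F, v.ord x < 0 := by
  have h := H.sep.sum_poles
  rw [H.finrank] at h
  by_contra hcon
  push Not at hcon
  have : H.sep.finite_poles.toFinset = ∅ := by
    ext v
    simp only [Set.Finite.mem_toFinset, Set.mem_ofPred_eq, Finset.notMem_empty, iff_false, not_lt]
    exact hcon v
  rw [this, Finset.sum_empty] at h
  norm_num at h

/-- `L((x)_∞) = K + K x` -/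
theorem ell_polarDiv_le [IsAlgClosed K] (H : IsWGen W x y) (h2 : (2 : K) ≠ 0) (hΔ : W.Δ ≠ 0) :
    ell (polarDiv K x) ≤ 2 := by
  have hle : riemannRochSpace (polarDiv K x) ≤
      (degreeLT K 2).map (aeval x : K[X] →ₐ[K] F).toLinearMap := by
    intro f hf
    rcases eq_or_ne f 0 with rfl | hf0
    · exact zero_mem _
    rw [mem_L_iff_of_ne_zero hf0] at hf
    obtain ⟨p, q, hpq⟩ := H.exists_poly h2 hΔ (f := f) (fun v hv => by
      rw [Place.mem_iff_ord_nonneg v hf0]
      have h1 := hf v
      rw [H.sep.polarDiv_apply, max_eq_right (by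
        have := Place.ord_nonneg_of_mem v hv
        omega)] at h1
      linarith)
    obtain ⟨v, hv⟩ := H.exists_pole
    have h1 := hf v
    rw [H.sep.polarDiv_apply, max_eq_left (by omega)] at h1
    obtain ⟨hp, hq⟩ := H.degree_bound v hv (p := p) (q := q) (m := 2) (by rw [← hpq]; linarith)
    have hq0 : q = 0 := by
      by_contra hq0
      have := hq hq0
      omega
    refine ⟨p, ?_, ?_⟩
    · by_cases hp0 : p = 0
      · rw [hp0]
        exact zero_mem _
      · have := hp hp0
        show p ∈ degreeLT K 2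
        rw [mem_degreeLT]
        rw [← natDegree_lt_iff_degree_lt hp0]
        omega
    · rw [hpq, hq0, map_zero, zero_mul, add_zero]
      rfl
  have hfin : Module.Finite K (degreeLT K 2) := Module.Finite.equiv (degreeLTEquiv K 2).symm
  calc ell (polarDiv K x) ≤ Module.finrank K
        ((degreeLT K 2).map (aeval x : K[X] →ₐ[K] F).toLinearMap) := Submodule.finrank_mono hle
    _ ≤ Module.finrank K (degreeLT K 2) := Submodule.finrank_map_le _ _
    _ = 2 := by rw [(degreeLTEquiv K 2).finrank_eq, Module.finrank_fin_fun]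

/-- **the genus is at least one** -/
theorem one_le_gR [IsAlgClosed K] (H : IsWGen W x y) (h2 : (2 : K) ≠ 0) (hΔ : W.Δ ≠ 0) :
    1 ≤ gR K F := by
  have h1 := H.sep.riemann_inequality (polarDiv K x)
  rw [H.sep.degree_polarDiv, H.finrank] at h1
  have h3 : (ell (polarDiv K x) : ℤ) ≤ 2 := by exact_mod_cast H.ell_polarDiv_le h2 hΔ
  push_cast at h1
  linarith

theorem gR_eq_one [IsAlgClosed K] (H : IsWGen W x y) (h2 : (2 : K) ≠ 0) (hΔ : W.Δ ≠ 0) :
    gR K F = 1 := le_antisymm H.gR_le_one (H.one_le_gR h2 hΔ)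

/-- `x` has exactly one pole `P`, `ord_P x = -2`, `ord_P y = -3` -/
theorem exists_unique_pole [IsAlgClosed K] (H : IsWGen W x y) :
    ∃ P : Place K F, P.ord x = -2 ∧ P.ord y = -3 ∧ ∀ v : Place K F, v.ord x < 0 → v = P := by
  have h := H.sep.sum_poles
  rw [H.finrank] at h
  set S := H.sep.finite_poles.toFinset with hS
  have hmem : ∀ v, v ∈ S ↔ v.ord x < 0 := fun v => by
    simp only [hS, Set.Finite.mem_toFinset, Set.mem_ofPred_eq]
  have hle : ∀ v ∈ S, v.ord x ≤ -2 := by
    intro v hv
    have h1 := (hmem v).1 hv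
    have h2 := H.two_ord_y v h1
    omega
  have h1 := Finset.sum_le_card_nsmul S (fun v => v.ord x) (-2) hle
  rw [h] at h1
  simp only [nsmul_eq_mul] at h1
  obtain ⟨v₀, hv₀⟩ := H.exists_pole
  have hpos : 0 < S.card := Finset.card_pos.2 ⟨v₀, (hmem v₀).2 hv₀⟩
  have hcard : S.card = 1 := by
    have : (S.card : ℤ) ≤ 1 := by push_cast at h1; linarith
    omega
  obtain ⟨P, hP⟩ := Finset.card_eq_one.1 hcard
  rw [hP, Finset.sum_singleton] at h
  have hx : P.ord x = -2 := by rw [h]; norm_num
  refine ⟨P, hx, ?_, fun v hv => ?_⟩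
  · have := H.two_ord_y P (by omega)
    omega
  · have := (hmem v).2 hv
    rw [hP, Finset.mem_singleton] at this
    exact this

theorem polarDiv_eq [IsAlgClosed K] (H : IsWGen W x y) {P : Place K F} (hx : P.ord x = -2)
    (hP : ∀ v : Place K F, v.ord x < 0 → v = P) : polarDiv K x = Finsupp.single P 2 := by
  classical
  ext v
  rw [H.sep.polarDiv_apply]
  by_cases hv : v = P
  · rw [hv, hx, Finsupp.single_eq_same]
    norm_num
  · rw [Finsupp.single_eq_of_ne hv, max_eq_right]
    by_contra hcon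
    exact hv (hP v (by omega))

/-- `L(P_∞) = K` : there is no function with a single simple pole. -/
theorem mem_range_of_mem_L_single [IsAlgClosed K] (H : IsWGen W x y) (h2 : (2 : K) ≠ 0)
    (hΔ : W.Δ ≠ 0) {P : Place K F} (hx : P.ord x = -2) {f : F}
    (hf : f ∈ riemannRochSpace (Finsupp.single P 1)) : f ∈ Set.range (algebraMap K F) := by
  classical
  rcases eq_or_ne f 0 with rfl | hf0
  · exact ⟨0, map_zero _⟩
  rw [mem_L_iff_of_ne_zero hf0] at hf
  obtain ⟨p, q, hpq⟩ := H.exists_poly h2 hΔ (f := f) (fun v hv => by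
    rw [Place.mem_iff_ord_nonneg v hf0]
    have h1 := hf v
    have hne : v ≠ P := by
      rintro rfl
      have := Place.ord_nonneg_of_mem v hv
      omega
    rw [Finsupp.single_eq_of_ne hne] at h1
    linarith)
  have h1 := hf P
  rw [Finsupp.single_eq_same] at h1
  obtain ⟨hp, hq⟩ := H.degree_bound P (by omega) (p := p) (q := q) (m := 1)
    (by rw [← hpq, hx]; linarith)
  have hq0 : q = 0 := by
    by_contra hq0
    have := hq hq0
    omega
  have hp0 : p.natDegree = 0 := by
    by_cases hp0 : p = 0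
    · rw [hp0]; simp
    · have := hp hp0
      omega
  rw [natDegree_eq_zero] at hp0
  obtain ⟨c, rfl⟩ := hp0
  exact ⟨c, by rw [hpq, hq0, map_zero, zero_mul, add_zero, aeval_C]⟩

end IsWGen

/-- **the genus inequality needed by `RED.exists_deuringHyp`** -/
theorem gR_le_gR {k Fb : Type*} [Field k] [Field Fb] [Algebra k Fb] [IsAlgClosed K] [IsAlgClosed k]
    {W : WeierstrassCurve K} {x y : F} (H : IsWGen W x y) {Wb : WeierstrassCurve k} {xb yb : Fb}
    (Hb : IsWGen Wb xb yb) (h2 : (2 : k) ≠ 0) (hΔ : Wb.Δ ≠ 0) : gR K F ≤ gR k Fb :=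
  H.gR_le_one.trans (Hb.one_le_gR h2 hΔ)

end Fermat.Agent.ML.EFlat
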