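import Fermat.Agent.FLAT.Defs

/-!
# ML / EFlat / Ord : orders in `Map(S, K)` over a valuation ring `A` of `K`

(copy of the first half of `FLAT/Ord/Basic.lean` in the namespace `Fermat.Agent.ML.EFlat`: that file cannot be imported
together with `FLAT/Desc/*` because both declare `FLAT.smul_mem_of_mem`.)

`Hh ⊆ Map(S, K)` is an *order* if it is an `A`-subalgebra of `Map(S, A)` containing `ϖ • Map(S, A)` for
some `ϖ ≠ 0`.
-/

set_option autoImplicit false

noncomputable section

namespace Fermat.Agent.ML.EFlat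

open Fermat.Agent.FLAT (box)

variable {K : Type*} [Field K] {A : ValuationSubring K}

/-- orders in `Map(S, K)`. -/
structure IsOrd (A : ValuationSubring K) {S : Type*} (Hh : Subalgebra A (S → K)) : Prop where
  integral : ∀ f ∈ Hh, ∀ s, f s ∈ A
  conductor : ∃ ϖ : K, ϖ ≠ 0 ∧ ∀ f : S → K, (∀ s, f s ∈ A) → ϖ • f ∈ Hh

variable {S S₁ S₂ : Type*}

theorem const_mem (Hh : Subalgebra A (S → K)) {a : K} (ha : a ∈ A) : (fun _ => a) ∈ Hh :=
  Hh.algebraMap_mem ⟨a, ha⟩

theorem smul_mem_of_mem (Hh : Subalgebra A (S → K)) {a : K} (ha : a ∈ A) {f : S → K}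
    (hf : f ∈ Hh) : a • f ∈ Hh :=
  Hh.smul_mem hf (⟨a, ha⟩ : A)

open Polynomial in
/-- (O1) an element of an order all of whose values are units of `A` is a unit of the order
(`f` is a root of the monic polynomial `∏ (X - f s) ∈ A[X]` with unit constant term). -/
theorem IsOrd.inv_mem [Finite S] {Hh : Subalgebra A (S → K)} (h : IsOrd A Hh) {f : S → K}
    (hf : f ∈ Hh) (hu : ∀ s, A.valuation (f s) = 1) : (fun s => (f s)⁻¹) ∈ Hh := by
  classical
  cases nonempty_fintype S
  let a : S → A := fun s => ⟨f s, h.integral f hf s⟩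
  let P : A[X] := ∏ s, (X - C (a s))
  have hev : ∀ (Q : A[X]) (s : S), (aeval f Q) s = aeval (f s) Q := fun Q s =>
    (aeval_algHom_apply (Pi.evalAlgHom A (fun _ : S => K) s) f Q).symm
  have hP : ∀ s, aeval (f s) P = 0 := by
    intro s
    simp only [P, map_prod, map_sub, aeval_X, aeval_C]
    exact Finset.prod_eq_zero (Finset.mem_univ s) (sub_self _)
  have hc0 : ((P.coeff 0 : A) : K) = ∏ s, (- f s) := by
    rw [coeff_zero_eq_eval_zero]
    simp only [P, eval_prod, eval_sub, eval_X, eval_C, zero_sub]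
    push_cast
    rfl
  have hc0v : A.valuation ((P.coeff 0 : A) : K) = 1 := by
    rw [hc0, map_prod]
    exact Finset.prod_eq_one fun s _ => by rw [Valuation.map_neg, hu s]
  have hc0ne : ((P.coeff 0 : A) : K) ≠ 0 := by
    intro h0
    rw [h0, map_zero] at hc0v
    exact zero_ne_one hc0v
  have hinv : (-((P.coeff 0 : A) : K)⁻¹) ∈ A := by
    rw [← A.valuation_le_one_iff, Valuation.map_neg, map_inv₀, hc0v, inv_one]
  have hQ : aeval f (divX P) ∈ Hh := by
    have := (aeval (⟨f, hf⟩ : Hh) (divX P)).2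
    rwa [← Subalgebra.aeval_coe] at this
  have := smul_mem_of_mem Hh hinv hQ
  convert this using 1
  funext s
  have h1 := hP s
  rw [← divX_mul_X_add P, map_add, map_mul, aeval_X, aeval_C] at h1
  have hfs : f s ≠ 0 := by
    intro h0
    have := hu s
    rw [h0, map_zero] at this
    exact zero_ne_one this
  rw [Pi.smul_apply, hev, smul_eq_mul]
  have h2 : algebraMap A K (P.coeff 0) = ((P.coeff 0 : A) : K) := rfl
  rw [h2] at h1
  field_simp
  linear_combination h1

/-- (O2) orders are closed. -/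
theorem IsOrd.mem_of_close {Hh : Subalgebra A (S → K)} (h : IsOrd A Hh) {f : S → K}
    (hf : ∀ ε : K, ε ≠ 0 → ∃ g ∈ Hh, ∀ s, A.valuation (f s - g s) ≤ A.valuation ε) : f ∈ Hh := by
  obtain ⟨ϖ, hϖ0, hϖ⟩ := h.conductor
  obtain ⟨g, hg, hfg⟩ := hf ϖ hϖ0
  have h1 := hϖ (fun s => (f s - g s) / ϖ) (fun s => by
    rw [← A.valuation_le_one_iff, map_div₀]
    exact div_le_one_of_le₀ (hfg s) zero_le)
  have h2 : f = g + ϖ • (fun s => (f s - g s) / ϖ) := by
    funext s
    simp only [Pi.add_apply, Pi.smul_apply, smul_eq_mul]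
    field_simp
    ring
  rw [h2]
  exact Hh.add_mem hg h1

/-- (O3) an integral subalgebra separating the points of a finite set is an order. -/
theorem isOrd_of_separates [Finite S] {Hh : Subalgebra A (S → K)}
    (hint : ∀ f ∈ Hh, ∀ s, f s ∈ A) (hsep : ∀ s t : S, s ≠ t → ∃ f ∈ Hh, f s ≠ f t) :
    IsOrd A Hh := by
  classical
  cases nonempty_fintype S
  refine ⟨hint, ?_⟩
  choose! φ hφ using hsep
  let e : S → S → K := fun s => ∏ t ∈ Finset.univ.erase s, (φ s t - fun _ => φ s t t)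
  have he : ∀ s, e s ∈ Hh := fun s => Subalgebra.prod_mem _ fun t ht =>
    Hh.sub_mem (hφ s t (Finset.ne_of_mem_erase ht).symm).1
      (const_mem Hh (hint _ (hφ s t (Finset.ne_of_mem_erase ht).symm).1 t))
  have heval : ∀ s t', e s t' = ∏ t ∈ Finset.univ.erase s, (φ s t t' - φ s t t) := fun s t' => by
    simp only [e, Finset.prod_apply, Pi.sub_apply]
  have he0 : ∀ s t', t' ≠ s → e s t' = 0 := fun s t' h => by
    rw [heval]
    exact Finset.prod_eq_zero (Finset.mem_erase.2 ⟨h, Finset.mem_univ _⟩) (sub_self _)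
  have hd : ∀ s, e s s ≠ 0 := fun s => by
    rw [heval, Finset.prod_ne_zero_iff]
    intro t ht
    exact sub_ne_zero.2 (hφ s t (Finset.ne_of_mem_erase ht).symm).2
  refine ⟨∏ s, e s s, Finset.prod_ne_zero_iff.2 fun s _ => hd s, fun F hF => ?_⟩
  have hdec : (∏ s, e s s) • F =
      ∑ s, (F s * ∏ s' ∈ Finset.univ.erase s, e s' s') • e s := by
    funext t
    rw [Finset.sum_apply, Finset.sum_eq_single t]
    · simp only [Pi.smul_apply, smul_eq_mul]
      rw [← Finset.mul_prod_erase Finset.univ (fun s => e s s) (Finset.mem_univ t)]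
      ring
    · intro s _ hs
      simp only [Pi.smul_apply, smul_eq_mul]
      rw [he0 s t hs.symm, mul_zero]
    · intro h
      exact absurd (Finset.mem_univ t) h
  rw [hdec]
  refine Subalgebra.sum_mem _ fun s _ => smul_mem_of_mem Hh ?_ (he s)
  exact mul_mem (hF s) (prod_mem fun s' _ => hint _ (he s') s')

theorem single_mem_A [DecidableEq S] (s t : S) : (Pi.single s (1 : K) : S → K) t ∈ A := by
  by_cases h : t = s
  · subst h
    rw [Pi.single_eq_same]
    exact A.one_mem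
  · rw [Pi.single_eq_of_ne h]
    exact A.zero_mem

theorem IsOrd.span_top [Finite S] {Hh : Subalgebra A (S → K)} (h : IsOrd A Hh) :
    Submodule.span K (Hh : Set (S → K)) = ⊤ := by
  classical
  cases nonempty_fintype S
  obtain ⟨ϖ, hϖ0, hϖ⟩ := h.conductor
  rw [eq_top_iff]
  intro F _
  have hdec : F = ∑ s, (F s * ϖ⁻¹) • (ϖ • (Pi.single s (1 : K) : S → K)) := by
    conv_lhs => rw [← Finset.univ_sum_single F]
    refine Finset.sum_congr rfl fun s _ => ?_
    rw [smul_smul, mul_assoc, inv_mul_cancel₀ hϖ0, mul_one]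
    funext t
    by_cases ht : t = s
    · subst ht; simp
    · simp [Pi.single_eq_of_ne ht]
  rw [hdec]
  exact Submodule.sum_mem _ fun s _ => Submodule.smul_mem _ _
    (Submodule.subset_span (hϖ _ (single_mem_A s)))

/-- the subalgebra of `Map(S₁ × S₂, K)` generated by the pull-backs of `H₁` and `H₂`. -/
def boxAlg (H₁ : Subalgebra A (S₁ → K)) (H₂ : Subalgebra A (S₂ → K)) :
    Subalgebra A (S₁ × S₂ → K) :=
  Algebra.adjoin A ({F | ∃ f ∈ H₁, F = fun p => f p.1} ∪ {F | ∃ g ∈ H₂, F = fun p => g p.2})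

theorem fst_mem_boxAlg (H₁ : Subalgebra A (S₁ → K)) (H₂ : Subalgebra A (S₂ → K)) {f : S₁ → K}
    (hf : f ∈ H₁) : (fun p : S₁ × S₂ => f p.1) ∈ boxAlg H₁ H₂ :=
  Algebra.subset_adjoin (Or.inl ⟨f, hf, rfl⟩)

theorem snd_mem_boxAlg (H₁ : Subalgebra A (S₁ → K)) (H₂ : Subalgebra A (S₂ → K)) {g : S₂ → K}
    (hg : g ∈ H₂) : (fun p : S₁ × S₂ => g p.2) ∈ boxAlg H₁ H₂ :=
  Algebra.subset_adjoin (Or.inr ⟨g, hg, rfl⟩)

theorem mul_mem_box (H₁ : Subalgebra A (S₁ → K)) (H₂ : Subalgebra A (S₂ → K))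
    {x y : S₁ × S₂ → K} (hx : x ∈ box (Subalgebra.toSubmodule H₁) (Subalgebra.toSubmodule H₂))
    (hy : y ∈ box (Subalgebra.toSubmodule H₁) (Subalgebra.toSubmodule H₂)) :
    x * y ∈ box (Subalgebra.toSubmodule H₁) (Subalgebra.toSubmodule H₂) := by
  unfold box at hx hy ⊢
  induction hx, hy using Submodule.span_induction₂ with
  | mem_mem x y hx hy =>
    obtain ⟨f, hf, g, hg, rfl⟩ := hx
    obtain ⟨f', hf', g', hg', rfl⟩ := hy
    refine Submodule.subset_span ⟨f * f', H₁.mul_mem hf hf', g * g', H₂.mul_mem hg hg', ?_⟩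
    funext p
    simp only [Pi.mul_apply]
    ring
  | zero_left y _ => rw [zero_mul]; exact Submodule.zero_mem _
  | zero_right x _ => rw [mul_zero]; exact Submodule.zero_mem _
  | add_left x y z _ _ _ h1 h2 => rw [add_mul]; exact Submodule.add_mem _ h1 h2
  | add_right x y z _ _ _ h1 h2 => rw [mul_add]; exact Submodule.add_mem _ h1 h2
  | smul_left r x y _ _ h1 => rw [smul_mul_assoc]; exact Submodule.smul_mem _ _ h1
  | smul_right r x y _ _ h1 => rw [mul_smul_comm]; exact Submodule.smul_mem _ _ h1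

theorem toSubmodule_boxAlg (H₁ : Subalgebra A (S₁ → K)) (H₂ : Subalgebra A (S₂ → K)) :
    Subalgebra.toSubmodule (boxAlg H₁ H₂) =
      box (Subalgebra.toSubmodule H₁) (Subalgebra.toSubmodule H₂) := by
  apply le_antisymm
  · have hone : (1 : S₁ × S₂ → K) ∈
        box (Subalgebra.toSubmodule H₁) (Subalgebra.toSubmodule H₂) :=
      Submodule.subset_span ⟨1, H₁.one_mem, 1, H₂.one_mem, by funext p; simp⟩
    let B : Subalgebra A (S₁ × S₂ → K) :=
      (box (Subalgebra.toSubmodule H₁) (Subalgebra.toSubmodule H₂)).toSubalgebra hone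
        (fun x y hx hy => mul_mem_box H₁ H₂ hx hy)
    have hle : boxAlg H₁ H₂ ≤ B := by
      refine Algebra.adjoin_le ?_
      rintro F (⟨f, hf, rfl⟩ | ⟨g, hg, rfl⟩)
      · exact Submodule.subset_span ⟨f, hf, 1, H₂.one_mem, by funext p; simp⟩
      · exact Submodule.subset_span ⟨1, H₁.one_mem, g, hg, by funext p; simp⟩
    exact fun x hx => hle hx
  · refine Submodule.span_le.2 ?_
    rintro F ⟨f, hf, g, hg, rfl⟩
    exact (boxAlg H₁ H₂).mul_mem (fst_mem_boxAlg H₁ H₂ hf) (snd_mem_boxAlg H₁ H₂ hg)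

/-- (O4) -/
theorem IsOrd.boxAlg [Finite S₁] [Finite S₂] {H₁ : Subalgebra A (S₁ → K)}
    {H₂ : Subalgebra A (S₂ → K)} (h₁ : IsOrd A H₁) (h₂ : IsOrd A H₂) :
    IsOrd A (boxAlg H₁ H₂) := by
  classical
  cases nonempty_fintype S₁
  cases nonempty_fintype S₂
  constructor
  · have key : ∀ F ∈ box (Subalgebra.toSubmodule H₁) (Subalgebra.toSubmodule H₂),
        ∀ p, F p ∈ A := by
      intro F hF
      unfold box at hF
      induction hF using Submodule.span_induction with
      | mem x hx =>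
        obtain ⟨f, hf, g, hg, rfl⟩ := hx
        exact fun p => mul_mem (h₁.integral f hf _) (h₂.integral g hg _)
      | zero => exact fun p => A.zero_mem
      | add x y _ _ hx hy => exact fun p => add_mem (hx p) (hy p)
      | smul r x _ hx => exact fun p => mul_mem r.2 (hx p)
    intro F hF
    have hF' : F ∈ Subalgebra.toSubmodule (Fermat.Agent.ML.EFlat.boxAlg H₁ H₂) := hF
    rw [toSubmodule_boxAlg] at hF'
    exact key F hF'
  · obtain ⟨ϖ₁, h10, hϖ₁⟩ := h₁.conductor
    obtain ⟨ϖ₂, h20, hϖ₂⟩ := h₂.conductor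
    refine ⟨ϖ₁ * ϖ₂, mul_ne_zero h10 h20, fun F hF => ?_⟩
    have hdec : (ϖ₁ * ϖ₂) • F = ∑ s : S₁, ∑ t : S₂, F (s, t) •
        ((fun p : S₁ × S₂ => (ϖ₁ • (Pi.single s (1 : K) : S₁ → K)) p.1) *
          (fun p : S₁ × S₂ => (ϖ₂ • (Pi.single t (1 : K) : S₂ → K)) p.2)) := by
      funext p
      obtain ⟨a, b⟩ := p
      rw [Finset.sum_apply, Finset.sum_eq_single a]
      · rw [Finset.sum_apply, Finset.sum_eq_single b]
        · simp only [Pi.smul_apply, Pi.mul_apply, smul_eq_mul, Pi.single_eq_same]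
          ring
        · intro t _ ht
          simp [Pi.single_eq_of_ne ht.symm]
        · intro h; exact absurd (Finset.mem_univ b) h
      · intro s _ hs
        rw [Finset.sum_apply]
        exact Finset.sum_eq_zero fun t _ => by simp [Pi.single_eq_of_ne hs.symm]
      · intro h; exact absurd (Finset.mem_univ a) h
    rw [hdec]
    refine Subalgebra.sum_mem _ fun s _ => Subalgebra.sum_mem _ fun t _ =>
      smul_mem_of_mem _ (hF (s, t)) (Subalgebra.mul_mem _ ?_ ?_)
    · exact fst_mem_boxAlg H₁ H₂ (hϖ₁ _ (single_mem_A s))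
    · exact snd_mem_boxAlg H₁ H₂ (hϖ₂ _ (single_mem_A t))

end Fermat.Agent.ML.EFlat
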