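import Fermat.Agent.ML.EFlat.Curve
import Fermat.Agent.FLAT.Desc.Main
import Fermat.Agent.FLAT.Alg.Order
import Fermat.Agent.ML.EFlat.Ord
import Fermat.Agent.HW.Pow.Unip
import Fermat.Agent.HW.Red
import Fermat.Agent.S58.ESide
import Fermat.Agent.S58.Pts
import Fermat.Agent.S56.Flat.Bridge
import Fermat.Agent.S56.Flat.Sub
import Fermat.Agent.S32.Wire
import Fermat.Agent.S32.OfModel

/-!
# ML / EFlat / Main : `E[p^n]` is finite flat at a prime `p` of good reduction   ([E-FLAT])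

`W : WeierstrassCurve ℤ`, `p` an odd prime with `p ∤ Δ`, `A | p` a place of `ℚ̄`.  `r ∉ {2, 3, p}` a prime.
For a nonzero `z ∈ E[r]` put `ξ_z(P) = x(P + z)`, `η_z(P) = y(P + z)` on `V = E[p^n]`, and
`H = A[ξ_z, η_z : z]`.

* the generators are `A`-valued (`P + z` is not in the kernel of reduction) and inertia equivariant
  (`z` is fixed by inertia: good reduction at `p`, `p ∤ r`);
* `P + Q + z = (P + 2 z) + (Q - z)` and `x(P + 2 z) - x(Q - z)` is a unit for ALL `P, Q`: the chord formula shows that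
  `H` is stable under the comultiplication (`FLAT.IsOrd.inv_mem`);
* so `H` is a `FLAT.IsHopfOrderA`; descent (`FLAT.exists_isHopfOrder`) gives a finite flat model over `ℤ_(p)`.
-/

set_option autoImplicit false

namespace Fermat.Agent.ML.EFlat

open WeierstrassCurve WeierstrassCurve.Affine WeierstrassCurve.Affine.Point
open Fermat.Agent.S05 Fermat.Agent.S13 Fermat.Agent.FLAT
open scoped WeierstrassCurve.Affine

variable (W : WeierstrassCurve ℤ)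

/-- `E[a]`. -/
abbrev TorsE (a : ℤ) : Type := ↥(Submodule.torsionBy ℤ (S58.EQ W) a)

/-- the Galois action on `E[a]` as an explicit homomorphism. -/
noncomputable def actE (a : ℤ) : GQ →* AddMonoid.End (TorsE W a) :=
  letI := S32.torsAction GQ (S58.EQ W) a
  DistribMulAction.toAddMonoidEnd GQ (TorsE W a)

theorem coe_actE (a : ℤ) (σ : GQ) (x : TorsE W a) :
    ((actE W a σ x : TorsE W a) : S58.EQ W) = σ • (x : S58.EQ W) := rfl

/-- `P ↦ x(P + z)`. -/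
noncomputable def xi (a : ℤ) (z : S58.EQ W) : TorsE W a → Qb := fun P => xc ((P : S58.EQ W) + z)

/-- `P ↦ y(P + z)`. -/
noncomputable def eta (a : ℤ) (z : S58.EQ W) : TorsE W a → Qb := fun P => yc ((P : S58.EQ W) + z)

/-- the generators. -/
def gens (a : ℤ) (r : ℕ) : Set (TorsE W a → Qb) :=
  {f | ∃ z : S58.EQ W, r • z = 0 ∧ z ≠ 0 ∧ (f = xi W a z ∨ f = eta W a z)}

theorem smoothAct_actE (a : ℤ) : SmoothAct (actE W a) := by
  intro x
  obtain ⟨L, hL, h⟩ := S58.exists_stab W (x : S58.EQ W)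
  exact ⟨L, hL, fun σ hσ => Subtype.ext (h σ hσ)⟩

variable {W}

theorem pow_nsmul_coe {p n : ℕ} (P : TorsE W ((p : ℤ) ^ n)) : p ^ n • (P : S58.EQ W) = 0 := by
  have h := (Submodule.mem_torsionBy_iff _ _).1 P.2
  rw [← natCast_zsmul]
  push_cast
  exact h

theorem yc_smul (σ : GQ) (P : S58.EQ W) : yc (σ • P) = σ (yc P) := by
  rcases P with _ | ⟨x, y, h⟩
  · simp [yc, Point.algEquiv_smul_def]
    rfl
  · rfl

theorem xc_smul (σ : GQ) (P : S58.EQ W) : xc (σ • P) = σ (xc P) := by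
  rcases P with _ | ⟨x, y, h⟩
  · simp [xc, Point.algEquiv_smul_def]
    rfl
  · rfl

theorem nsmul_ne_zero_of_not_dvd {G : Type*} [AddCommGroup G] {r : ℕ} (hr : r.Prime) {z : G}
    (hz : r • z = 0) (hz0 : z ≠ 0) {c : ℕ} (hc : ¬ r ∣ c) : c • z ≠ 0 := by
  intro h0
  have : Fact r.Prime := ⟨hr⟩
  have hord : addOrderOf z = r := addOrderOf_eq_prime hz hz0
  exact hc (hord ▸ addOrderOf_dvd_of_nsmul_eq_zero h0)

/-- the two translations `2 z` and `- z`. -/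
theorem exists_translations {G : Type*} [AddCommGroup G] {r : ℕ} (hr : r.Prime) (hr2 : r ≠ 2)
    (hr3 : r ≠ 3) {z : G} (hz : r • z = 0) (hz0 : z ≠ 0) :
    ∃ z1 z2 : G, r • z1 = 0 ∧ r • z2 = 0 ∧ z1 ≠ 0 ∧ z2 ≠ 0 ∧ z1 + z2 ≠ 0 ∧ z1 - z2 ≠ 0 ∧
      ∀ a b : G, a + b + z = (a + z1) + (b + z2) := by
  refine ⟨z + z, -z, by rw [smul_add, hz, add_zero], by rw [smul_neg, hz, _root_.neg_zero], ?_,
    neg_ne_zero.2 hz0, ?_, ?_, fun a b => by abel⟩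
  · rw [← two_nsmul]
    exact nsmul_ne_zero_of_not_dvd hr hz hz0
      (fun h => hr2 ((Nat.prime_dvd_prime_iff_eq hr Nat.prime_two).1 h))
  · rw [show z + z + -z = z by abel]
    exact hz0
  · rw [show z + z - -z = 3 • z by abel]
    exact nsmul_ne_zero_of_not_dvd hr hz hz0
      (fun h => hr3 ((Nat.prime_dvd_prime_iff_eq hr Nat.prime_three).1 h))

section Core

variable {p r n : ℕ} {A : ValuationSubring Qb}

theorem val_Δ_eq_one (hp : p.Prime) (hgood : W.IsGoodPrimeFor p) (hA : A.LiesOverPrime p) :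
    A.valuation (HW.EQb W).Δ = 1 := by
  rw [HW.Δ_EQb]
  exact valuation_intCast_eq_one A hp hA hgood

theorem not_inE1_tors (hp : p.Prime) (hr : r.Prime) (hr2 : r ≠ 2) (hrp : r ≠ p)
    (hA : A.LiesOverPrime p) (P : TorsE W ((p : ℤ) ^ n)) {z : S58.EQ W} (hz : r • z = 0)
    (hz0 : z ≠ 0) : ¬ InE1 A ((P : S58.EQ W) + z) :=
  not_inE1_add (HW.intData_EQb W A) hr hr2 hp hrp hA (pow_nsmul_coe P) hz hz0

theorem adjoin_integral (hp : p.Prime) (hr : r.Prime) (hr2 : r ≠ 2) (hrp : r ≠ p)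
    (hA : A.LiesOverPrime p) :
    ∀ h ∈ Algebra.adjoin A (gens W ((p : ℤ) ^ n) r), ∀ x, h x ∈ A := by
  intro h hh
  induction hh using Algebra.adjoin_induction with
  | mem f hf =>
    obtain ⟨z, hz, hz0, rfl | rfl⟩ := hf
    · exact fun x => xc_mem_of_not_inE1 (not_inE1_tors hp hr hr2 hrp hA x hz hz0)
    · exact fun x => yc_mem_of_not_inE1 (HW.intData_EQb W A)
        (not_inE1_tors hp hr hr2 hrp hA x hz hz0)
  | algebraMap a => exact fun x => a.2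
  | add f g _ _ hf hg => exact fun x => add_mem (hf x) (hg x)
  | mul f g _ _ hf hg => exact fun x => mul_mem (hf x) (hg x)

theorem xi_mem_adjoin {z : S58.EQ W} (hz : r • z = 0) (hz0 : z ≠ 0) :
    xi W ((p : ℤ) ^ n) z ∈ Algebra.adjoin A (gens W ((p : ℤ) ^ n) r) :=
  Algebra.subset_adjoin ⟨z, hz, hz0, Or.inl rfl⟩

theorem eta_mem_adjoin {z : S58.EQ W} (hz : r • z = 0) (hz0 : z ≠ 0) :
    eta W ((p : ℤ) ^ n) z ∈ Algebra.adjoin A (gens W ((p : ℤ) ^ n) r) :=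
  Algebra.subset_adjoin ⟨z, hz, hz0, Or.inr rfl⟩

theorem adjoin_separates (hΔ0 : W.Δ ≠ 0) (hp : p.Prime) (hr : r.Prime) (hr2 : r ≠ 2) (hrp : r ≠ p)
    (hA : A.LiesOverPrime p) (s t : TorsE W ((p : ℤ) ^ n)) (hst : s ≠ t) :
    ∃ f ∈ Algebra.adjoin A (gens W ((p : ℤ) ^ n) r), f s ≠ f t := by
  obtain ⟨z, hzr⟩ := S58.exists_addOrderOf_eq W hΔ0 (hr.odd_of_ne_two hr2)
  have hz : r • z = 0 := by rw [← hzr]; exact addOrderOf_nsmul_eq_zero z
  have hz0 : z ≠ 0 := by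
    rintro rfl
    rw [addOrderOf_zero] at hzr
    exact hr.one_lt.ne hzr
  by_cases hx : xi W ((p : ℤ) ^ n) z s = xi W ((p : ℤ) ^ n) z t
  · refine ⟨_, eta_mem_adjoin hz hz0, fun hy => hst ?_⟩
    have := HW.point_ext (ne_zero_of_not_inE1 (not_inE1_tors hp hr hr2 hrp hA s hz hz0))
      (ne_zero_of_not_inE1 (not_inE1_tors hp hr hr2 hrp hA t hz hz0)) hx hy
    exact Subtype.ext (add_right_cancel this)
  · exact ⟨_, xi_mem_adjoin hz hz0, hx⟩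

theorem isOrd_adjoin (hΔ0 : W.Δ ≠ 0) (hp : p.Prime) (hr : r.Prime) (hr2 : r ≠ 2) (hrp : r ≠ p)
    (hA : A.LiesOverPrime p) [Finite (TorsE W ((p : ℤ) ^ n))] :
    IsOrd A (Algebra.adjoin A (gens W ((p : ℤ) ^ n) r)) :=
  isOrd_of_separates (adjoin_integral hp hr hr2 hrp hA) (adjoin_separates hΔ0 hp hr hr2 hrp hA)

theorem gens_equivariant (hp : p.Prime) (hr : r.Prime) (hr2 : r ≠ 2) (hrp : r ≠ p)
    (hgood : W.IsGoodPrimeFor p) (hA : A.LiesOverPrime p) :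
    ∀ f ∈ gens W ((p : ℤ) ^ n) r, ∀ σ ∈ A.inertiaSubgroupIn ℚ,
      IsEquiv (actE W ((p : ℤ) ^ n)) σ f := by
  rintro f ⟨z, hz, hz0, hf⟩ σ hσ x
  have hcop : Nat.Coprime r p := (Nat.coprime_primes hr hp).2 hrp
  have hfix : σ • z = z := S58.inertia_good W hp hgood (hr.odd_of_ne_two hr2) hcop A hA σ hσ z hz
  have h1 : ((actE W ((p : ℤ) ^ n) σ x : TorsE W ((p : ℤ) ^ n)) : S58.EQ W) + z =
      σ • ((x : S58.EQ W) + z) := by
    have h2 := smul_add σ (x : S58.EQ W) z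
    rw [coe_actE, h2, hfix]
  rcases hf with rfl | rfl
  · show xc _ = σ (xc _)
    rw [h1, xc_smul]
  · show yc _ = σ (yc _)
    rw [h1, yc_smul]

theorem comul_gens (hΔ0 : W.Δ ≠ 0) (hp : p.Prime) (hr : r.Prime) (hr2 : r ≠ 2) (hr3 : r ≠ 3)
    (hrp : r ≠ p) (hgood : W.IsGoodPrimeFor p) (hA : A.LiesOverPrime p)
    [Finite (TorsE W ((p : ℤ) ^ n))] :
    ∀ f ∈ gens W ((p : ℤ) ^ n) r,
      (fun w : TorsE W ((p : ℤ) ^ n) × TorsE W ((p : ℤ) ^ n) => f (w.1 + w.2)) ∈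
        box (Subalgebra.toSubmodule (Algebra.adjoin A (gens W ((p : ℤ) ^ n) r)))
          (Subalgebra.toSubmodule (Algebra.adjoin A (gens W ((p : ℤ) ^ n) r))) := by
  rintro f ⟨z, hz, hz0, hf⟩
  rw [← toSubmodule_boxAlg]
  have hO : IsOrd A (Algebra.adjoin A (gens W ((p : ℤ) ^ n) r)) :=
    isOrd_adjoin hΔ0 hp hr hr2 hrp hA
  have hB := hO.boxAlg hO
  obtain ⟨B, hBdef⟩ : ∃ B, B = boxAlg (Algebra.adjoin A (gens W ((p : ℤ) ^ n) r))
    (Algebra.adjoin A (gens W ((p : ℤ) ^ n) r)) := ⟨_, rfl⟩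
  rw [← hBdef] at hB ⊢
  have I := HW.intData_EQb W A
  -- the two translations
  obtain ⟨z1, z2, hz1, hz2, h10, h20, h3, h4, h12⟩ := exists_translations hr hr2 hr3 hz hz0
  -- the coordinate functions
  obtain ⟨X1, hX1def⟩ : ∃ X1 : TorsE W ((p : ℤ) ^ n) × TorsE W ((p : ℤ) ^ n) → Qb,
    X1 = fun w => xi W ((p : ℤ) ^ n) z1 w.1 := ⟨_, rfl⟩
  obtain ⟨Y1, hY1def⟩ : ∃ Y1 : TorsE W ((p : ℤ) ^ n) × TorsE W ((p : ℤ) ^ n) → Qb,
    Y1 = fun w => eta W ((p : ℤ) ^ n) z1 w.1 := ⟨_, rfl⟩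
  obtain ⟨X2, hX2def⟩ : ∃ X2 : TorsE W ((p : ℤ) ^ n) × TorsE W ((p : ℤ) ^ n) → Qb,
    X2 = fun w => xi W ((p : ℤ) ^ n) z2 w.2 := ⟨_, rfl⟩
  obtain ⟨Y2, hY2def⟩ : ∃ Y2 : TorsE W ((p : ℤ) ^ n) × TorsE W ((p : ℤ) ^ n) → Qb,
    Y2 = fun w => eta W ((p : ℤ) ^ n) z2 w.2 := ⟨_, rfl⟩
  have hX1 : X1 ∈ B := by
    rw [hX1def, hBdef]; exact fst_mem_boxAlg _ _ (xi_mem_adjoin hz1 h10)
  have hY1 : Y1 ∈ B := by
    rw [hY1def, hBdef]; exact fst_mem_boxAlg _ _ (eta_mem_adjoin hz1 h10)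
  have hX2 : X2 ∈ B := by
    rw [hX2def, hBdef]; exact snd_mem_boxAlg _ _ (xi_mem_adjoin hz2 h20)
  have hY2 : Y2 ∈ B := by
    rw [hY2def, hBdef]; exact snd_mem_boxAlg _ _ (eta_mem_adjoin hz2 h20)
  have hu : ∀ w, A.valuation ((X1 - X2) w) = 1 := by
    intro w
    rw [hX1def, hX2def]
    exact val_xc_add_sub_eq_one I (val_Δ_eq_one hp hgood hA) hr hr2 hp hrp hA
      (pow_nsmul_coe w.1) (pow_nsmul_coe w.2) hz1 hz2 h10 h20 h3 h4
  have hDinv := hB.inv_mem (B.sub_mem hX1 hX2) hu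
  obtain ⟨L, hLdef⟩ : ∃ L : TorsE W ((p : ℤ) ^ n) × TorsE W ((p : ℤ) ^ n) → Qb,
    L = (Y1 - Y2) * fun w => ((X1 - X2) w)⁻¹ := ⟨_, rfl⟩
  have hL : L ∈ B := by rw [hLdef]; exact B.mul_mem (B.sub_mem hY1 hY2) hDinv
  obtain ⟨X3, hX3def⟩ : ∃ X3 : TorsE W ((p : ℤ) ^ n) × TorsE W ((p : ℤ) ^ n) → Qb,
    X3 = L ^ 2 + (fun _ => (HW.EQb W).a₁) * L - (fun _ => (HW.EQb W).a₂) - X1 - X2 := ⟨_, rfl⟩
  have hX3 : X3 ∈ B := by
    rw [hX3def]
    exact B.sub_mem (B.sub_mem (B.sub_mem (B.add_mem (B.pow_mem hL 2)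
      (B.mul_mem (const_mem B I.h₁) hL)) (const_mem B I.h₂)) hX1) hX2
  -- the chord formulas
  have hsum : ∀ w : TorsE W ((p : ℤ) ^ n) × TorsE W ((p : ℤ) ^ n),
      (((w.1 + w.2 : TorsE W ((p : ℤ) ^ n)) : S58.EQ W) + z) =
        ((w.1 : S58.EQ W) + z1) + ((w.2 : S58.EQ W) + z2) := by
    intro w
    rw [Submodule.coe_add]
    exact h12 _ _
  have hn1 : ∀ w : TorsE W ((p : ℤ) ^ n) × TorsE W ((p : ℤ) ^ n), (w.1 : S58.EQ W) + z1 ≠ 0 :=
    fun w => ne_zero_of_not_inE1 (not_inE1_tors hp hr hr2 hrp hA w.1 hz1 h10)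
  have hn2 : ∀ w : TorsE W ((p : ℤ) ^ n) × TorsE W ((p : ℤ) ^ n), (w.2 : S58.EQ W) + z2 ≠ 0 :=
    fun w => ne_zero_of_not_inE1 (not_inE1_tors hp hr hr2 hrp hA w.2 hz2 h20)
  have hne : ∀ w : TorsE W ((p : ℤ) ^ n) × TorsE W ((p : ℤ) ^ n),
      xc ((w.1 : S58.EQ W) + z1) ≠ xc ((w.2 : S58.EQ W) + z2) := by
    intro w h
    have h1 := hu w
    rw [hX1def, hX2def] at h1
    have h2 : (xi W ((p : ℤ) ^ n) z1 w.1 - xi W ((p : ℤ) ^ n) z2 w.2) = 0 := sub_eq_zero.2 h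
    have h3 : A.valuation (xi W ((p : ℤ) ^ n) z1 w.1 - xi W ((p : ℤ) ^ n) z2 w.2) = 1 := h1
    rw [h2, _root_.map_zero] at h3
    exact zero_ne_one h3
  have hx3 : ∀ w, xc (((w.1 + w.2 : TorsE W ((p : ℤ) ^ n)) : S58.EQ W) + z) = X3 w := by
    intro w
    rw [hsum w, xc_add_of_ne (hn1 w) (hn2 w) (hne w), hX3def, hLdef, hX1def, hX2def, hY1def, hY2def]
    rfl
  rcases hf with rfl | rfl
  · have : (fun w : TorsE W ((p : ℤ) ^ n) × TorsE W ((p : ℤ) ^ n) =>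
        xi W ((p : ℤ) ^ n) z (w.1 + w.2)) = X3 := funext hx3
    rw [this]
    exact hX3
  · have : (fun w : TorsE W ((p : ℤ) ^ n) × TorsE W ((p : ℤ) ^ n) =>
        eta W ((p : ℤ) ^ n) z (w.1 + w.2)) =
        -(L * (X3 - X1) + Y1) - (fun _ => (HW.EQb W).a₁) * X3 - (fun _ => (HW.EQb W).a₃) := by
      funext w
      show yc (((w.1 + w.2 : TorsE W ((p : ℤ) ^ n)) : S58.EQ W) + z) = _
      have h5 := hx3 w
      rw [hsum w] at h5 ⊢
      rw [yc_add_of_ne (hn1 w) (hn2 w) (hne w), h5, hLdef, hX1def, hX2def, hY1def, hY2def]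
      rfl
    rw [this]
    exact B.sub_mem (B.sub_mem (B.neg_mem (B.add_mem (B.mul_mem hL (B.sub_mem hX3 hX1)) hY1))
      (B.mul_mem (const_mem B I.h₁) hX3)) (const_mem B I.h₃)

theorem finite_torsE (hp : p.Prime) (hp2 : p ≠ 2) : Finite (TorsE W ((p : ℤ) ^ n)) := by
  have hodd : Odd (p ^ n) := (hp.odd_of_ne_two hp2).pow
  have h := HW.finite_torsionBy (k := Qb) (W.map (Int.castRingHom ℚ)) hodd
    (Nat.cast_ne_zero.2 hodd.pos.ne')
  have e : ((p ^ n : ℕ) : ℤ) = (p : ℤ) ^ n := by push_cast; rfl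
  rw [e] at h
  exact h

/-- the Hopf order over `A`. -/
theorem isHopfOrderA_tors (hΔ0 : W.Δ ≠ 0) (hp : p.Prime) (hr : r.Prime) (hr2 : r ≠ 2) (hr3 : r ≠ 3)
    (hrp : r ≠ p) (hgood : W.IsGoodPrimeFor p) (hA : A.LiesOverPrime p)
    [Finite (TorsE W ((p : ℤ) ^ n))] :
    IsHopfOrderA A (actE W ((p : ℤ) ^ n)) (Algebra.adjoin A (gens W ((p : ℤ) ^ n) r)) where
  integral := adjoin_integral hp hr hr2 hrp hA
  span_top := (isOrd_adjoin hΔ0 hp hr hr2 hrp hA).span_top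
  comul := comulClosed_adjoin _ (comul_gens hΔ0 hp hr hr2 hr3 hrp hgood hA)
  gen := ⟨_, rfl, gens_equivariant hp hr hr2 hrp hgood hA⟩

theorem exists_aux_prime (p : ℕ) : ∃ r : ℕ, r.Prime ∧ r ≠ 2 ∧ r ≠ 3 ∧ r ≠ p := by
  obtain ⟨r, hr, hrp⟩ := Nat.exists_infinite_primes (p + 4)
  exact ⟨r, hrp, by omega, by omega, by omega⟩

end Core

variable (W)

/-- **[E-FLAT]**, `G_ℚ`-form: `E[p^n]` is the module of `ℚ̄`-points of a finite flat commutative group scheme over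
`ℤ_(p)`, for `p` odd of good reduction. -/
theorem hasFlatModel_torsE (hΔ0 : W.Δ ≠ 0) {p : ℕ} (hp : p.Prime) (hp2 : p ≠ 2)
    (hgood : W.IsGoodPrimeFor p) {A : ValuationSubring Qb} (hA : A.LiesOverPrime p) (n : ℕ) :
    HasFlatModel p (TorsE W ((p : ℤ) ^ n)) (actE W ((p : ℤ) ^ n)) := by
  have : Fact p.Prime := ⟨hp⟩
  have := finite_torsE (W := W) (n := n) hp hp2
  obtain ⟨r, hr, hr2, hr3, hrp⟩ := exists_aux_prime p
  obtain ⟨H', hH'⟩ := exists_isHopfOrder hA (smoothAct_actE W _)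
    (isHopfOrderA_tors (n := n) hΔ0 hp hr hr2 hr3 hrp hgood hA)
  exact hasFlatModel_of_isHopfOrder hH'

open Fermat.Agent.S56.Flat in
/-- **[E-FLAT]**, in the language of `S56/Flat` (inertia at `A | p`). -/
theorem hasFlat_actE (hΔ0 : W.Δ ≠ 0) {p : ℕ} (hp : p.Prime) (hp2 : p ≠ 2)
    (hgood : W.IsGoodPrimeFor p) {A : ValuationSubring Qb} (hA : A.LiesOverPrime p) (n : ℕ) :
    HasFlat A.valuation ((actE W ((p : ℤ) ^ n)).comp (A.inertiaSubgroupIn ℚ).subtype) := by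
  have : Fact p.Prime := ⟨hp⟩
  have := finite_torsE (W := W) (n := n) hp hp2
  let _ := S32.torsAction GQ (S58.EQ W) ((p : ℤ) ^ n)
  have hX : S32.HasModel p (TorsE W ((p : ℤ) ^ n)) := hasFlatModel_torsE W hΔ0 hp hp2 hgood hA n
  exact hasFlat_of_hasOrder hp hA (actE W ((p : ℤ) ^ n)) (fun _ _ => rfl) hX.hasOrder

open Fermat.Agent.S56.Flat in
/-- **[E-FLAT]**, embedding form: a `G_ℚ`-module embedded in `E[p^n]` is flat on inertia at `p`. -/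
theorem hasFlat_of_embedding_E (hΔ0 : W.Δ ≠ 0) {p : ℕ} (hp : p.Prime) (hp2 : p ≠ 2)
    (hgood : W.IsGoodPrimeFor p) {A : ValuationSubring Qb} (hA : A.LiesOverPrime p) (n : ℕ)
    {X : Type} [AddCommGroup X] (act : GQ →* AddMonoid.End X) (j : X →+ S58.EQ W)
    (hj : Function.Injective j) (hn : ∀ x, p ^ n • j x = 0)
    (heq : ∀ (σ : GQ) (x : X), j (act σ x) = σ • j x) :
    HasFlat A.valuation (act.comp (A.inertiaSubgroupIn ℚ).subtype) := by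
  have hmem : ∀ x, j x ∈ Submodule.torsionBy ℤ (S58.EQ W) ((p : ℤ) ^ n) := by
    intro x
    rw [Submodule.mem_torsionBy_iff]
    have h := hn x
    rw [← natCast_zsmul] at h
    push_cast at h
    exact h
  let j' : X →+ TorsE W ((p : ℤ) ^ n) :=
    { toFun := fun x => ⟨j x, hmem x⟩
      map_zero' := Subtype.ext (_root_.map_zero j)
      map_add' := fun x y => Subtype.ext (map_add j x y) }
  refine HasFlat.of_injective j' (fun x y h => hj (congrArg Subtype.val h)) ?_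
    (hasFlat_actE W hΔ0 hp hp2 hgood hA n)
  intro g x
  exact Subtype.ext (heq g x)

end Fermat.Agent.ML.EFlat
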